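import Fermat.Agent.A3.GR.H919.RimAbs
import Fermat.Agent.A3.GR.Leaves
import Fermat.Agent.S37.Core.DatumLeaf

/-!
# A3 / GOODRED-INST, leaf RIM (helper919)

`RimStatement A M` (`A3/GR/Leaves.lean`): the place reduction map `r` of `X₀(M)` at `A ∣ ℓ`
with (i) degrees, (ii) `r_* div u = div (ρ u)` for fractions `u` of integral `q`-series with
`ρ u ≠ 0`, (iii) `r (σ P) = r P` for `σ` in the inertia group of `A`.

* `rim_of_good_h919` : from goodness of helper40's modular datum `Red.modG` whose coordinate has
  an integral model `X ∈ ℤ((q))` (so that it is fixed by the coefficientwise Galois action).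
  `r` is the reduction map of helper940's atlas of the coordinate; (iii) is
  `atlasOf_red_smul_h919` with `isInertial_qData_h919` (`RimAbs.lean`).
* `rimStatement_of_leaves_h919` : from the open leaves D2, D3, D4 and node_mod of the S37 board
  (`S37/Core/Leaves.lean`), at every good level — the same inputs as
  `S37.Core.datumStatement_of_leaves`.
-/

set_option autoImplicit false
set_option linter.style.haveILetI false
set_option synthInstance.maxHeartbeats 400000

noncomputable section

namespace Fermat.Agent.A3.GR.H919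

open AlgebraicCurve ModularCurve HahnSeries IsLocalRing IntermediateField
open Fermat.Agent.S37 Fermat.Agent.S37.H940 Fermat.Agent.S37.Core Fermat.Agent.S18

local notation "Qb" => AlgebraicClosure ℚ

variable {M : ℕ} {A : ValuationSubring Qb}

/-- the coefficientwise action of an element of the inertia group is inertial for the context
of the modular datum -/
theorem isInertial_modG_h919 (hVG : Red.ModVG M A) (y : LaurentSeries A)
    (hy : coeffMap A.subtype y ∈ modularFunctionFieldBar M)
    (hyk : coeffMap (residue A) y ∈ modularFunctionFieldFullC (ResidueField A) M)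
    (htr : Transcendental (ResidueField A)
      (⟨coeffMap (residue A) y, hyk⟩ : modularFunctionFieldFullC (ResidueField A) M))
    (σ : Qb ≃ₐ[ℚ] Qb) (hσ : σ ∈ A.inertiaSubgroupIn ℚ) :
    IsInertial (Red.H940.ctx (Red.modG hVG y hy hyk htr))
      (arithmeticGalois (modularFunctionFieldFull M) σ) :=
  isInertial_qData_h919 A (residue A) (modularFunctionFieldFull M)
    (modularFunctionFieldFullC (ResidueField A) M) σ (inertia_mem_h919 ℚ hσ)
    (inertia_res_h919 ℚ hσ) residue_surjective (Red.residue_eq_zero_iff_not_isUnit A)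

section Abstract

universe u

variable {K k F Fk : Type u} [Field K] [Field k] [Field F] [Field Fk] [Algebra K F]
  [Algebra k Fk] [IsAlgClosed K] [CharZero K] [IsAlgClosed k]
  {A₀ : ValuationSubring K} {π : A₀ →+* k}

/-- **The place reduction map of a good datum, with inertia invariance** (abstract form):
(i) degrees, (ii) specialisation of principal divisors, (iii) `r (g • P) = r P` for every
semilinear automorphism `g` which is inertial together with `g⁻¹` and fixes the coordinate. -/
theorem exists_red_inertial_h919 (G : Red.Datum A₀ π F Fk) (hgood : G.Good) :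
    ∃ r : Place K F → Place k Fk, (∀ P, (r P).deg = P.deg) ∧
      (∀ (y : F) (hy : y ∈ G.O), G.ρ ⟨y, hy⟩ ≠ 0 → ∀ D : Divisor K F,
        (∀ P, D P = P.ord y) → ∀ Q, Finsupp.mapDomain r D Q = Q.ord (G.ρ ⟨y, hy⟩)) ∧
      ∀ g : SemilinearAut K F, IsInertial (Red.H940.ctx G) g →
        IsInertial (Red.H940.ctx G) g⁻¹ → g • G.x = G.x → ∀ P, r (g • P) = r P := by
  have hFS := Red.H160.fibreSumStatement G
  haveI i1 : FiniteDimensional K⟮((Red.H940.cx G : (Red.H940.ctx G).V) : F)⟯ F := hgood.finite
  haveI i2 : FiniteDimensional k⟮(Red.H940.ctx G).ρ (Red.H940.cx G)⟯ Fk := hgood.finite_k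
  have hfin : ∀ c : k, LocalCoord (Red.H940.ctx G) (Red.H940.cx G) c := by
    intro c
    obtain ⟨a, rfl⟩ := G.π_surj c
    exact Red.H940.localCoord_fin G hgood a
      (fun y hy hρ => hFS G.x (Red.H940.auxCoord_x G hgood) y hy hρ a)
  have hinf : LocalCoord (Red.H940.ctx G)
      (xinv (Red.H940.ctx G) (Red.H940.cx G) (Red.H940.transc_cx G)) 0 :=
    Red.H940.localCoord_inf G hgood
      (fun y hy hρ => hFS G.x⁻¹ (Red.H940.auxCoord_xinv G hgood) y hy hρ 0)
  refine ⟨(atlasOf (Red.H940.ctx G) (Red.H940.cx G) (Red.H940.transc_cx G) hfin hinf).red,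
    ?_, ?_, ?_⟩
  · exact atlasOf_red_deg_h919 (Red.H940.ctx G) (Red.H940.cx G) (Red.H940.transc_cx G) hfin hinf
  · intro y hy hu D hD Q
    exact atlasOf_mapDomain_red_h919 (Red.H940.ctx G) (Red.H940.cx G) (Red.H940.transc_cx G)
      hfin hinf ⟨y, hy⟩ hu D hD Q
  · intro g hg hg' hgx P
    exact atlasOf_red_smul_h919 (Red.H940.ctx G) (Red.H940.cx G) (Red.H940.transc_cx G)
      hfin hinf g hg hg' hgx P

end Abstract

/-- the modular datum and helper940's canonical context have the same functions -/
theorem mem_modO_of_mem_ctx_h919 (hVG : Red.ModVG M A) (u : (Rim.ctx A M).V) :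
    (u : modularFunctionFieldBar M) ∈ Red.modO hVG := u.2

/-- the modular datum and helper940's canonical context have the same reduction -/
theorem modρ_eq_ctx_ρ_h919 (hVG : Red.ModVG M A) (u : (Rim.ctx A M).V) :
    Red.modρ hVG ⟨(u : modularFunctionFieldBar M), mem_modO_of_mem_ctx_h919 hVG u⟩ =
      (Rim.ctx A M).ρ u := rfl

/-- **RIM from goodness of the modular datum with an integral coordinate.** -/
theorem rim_of_good_h919 (hVG : Red.ModVG M A) (X : LaurentSeries ℤ)
    (hx : coeffMap A.subtype (modelA A X) ∈ modularFunctionFieldBar M)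
    (hxk : coeffMap (residue A) (modelA A X) ∈ modularFunctionFieldFullC (ResidueField A) M)
    (htr : Transcendental (ResidueField A)
      (⟨coeffMap (residue A) (modelA A X), hxk⟩ : modularFunctionFieldFullC (ResidueField A) M))
    (hgood : (Red.modG hVG (modelA A X) hx hxk htr).Good) :
    RimStatement A M := by
  haveI : IsAlgClosed (ResidueField A) := Fermat.Agent.S18.H9.resAlgClosed _ A
  obtain ⟨r, hdeg, hii, hinert⟩ :=
    exists_red_inertial_h919 (Red.modG hVG (modelA A X) hx hxk htr) hgood
  refine ⟨r, hdeg, ?_, ?_⟩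
  · intro u hu D hD Q
    have h := hii (u : modularFunctionFieldBar M) (mem_modO_of_mem_ctx_h919 hVG u)
      (by
        have e := modρ_eq_ctx_ρ_h919 hVG u
        intro h0
        exact hu (e.symm.trans h0)) D hD Q
    rw [h]
    exact congrArg Q.ord (modρ_eq_ctx_ρ_h919 hVG u)
  · intro σ hσ P
    have hσ' : σ⁻¹ ∈ A.inertiaSubgroupIn ℚ := inv_mem hσ
    have hg := isInertial_modG_h919 hVG (modelA A X) hx hxk htr σ hσ
    have hg' := isInertial_modG_h919 hVG (modelA A X) hx hxk htr σ⁻¹ hσ'
    rw [map_inv] at hg'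
    exact hinert (arithmeticGalois (modularFunctionFieldFull M) σ) hg hg'
      (smul_eq_of_int_h919 (modularFunctionFieldFull M) σ X _ (coeffMap_subtype_modelA A X)) P

/-- **RIM from the leaves of the S37 board** (D2, D3, D4, node_mod), at every good level. -/
theorem rimStatement_of_leaves_h919 (hD2 : NormalAbsStatement) (hD3 : LiftLeaf) (hD4 : H1Leaf)
    (hMod : ModStatement) (M ℓ : ℕ) [NeZero M] (hℓ : ℓ.Prime) (hℓM : ¬ ℓ ∣ M)
    (hg : GoodLevel M ℓ) (A : ValuationSubring Qb) (hA : A.LiesOverPrime ℓ) :
    RimStatement A M := by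
  haveI : Fact ℓ.Prime := ⟨hℓ⟩
  haveI : IsAlgClosed (ResidueField A) := Fermat.Agent.S18.H9.resAlgClosed _ A
  have h3 : ℓ = 3 → 2 ∣ M := fun h => by
    rcases hg with h5 | ⟨-, h⟩ | ⟨h2, -⟩
    · omega
    · exact h
    · omega
  have h2 : ℓ = 2 → 3 ∣ M := fun h => by
    rcases hg with h5 | ⟨h3, -⟩ | ⟨-, h⟩
    · omega
    · omega
    · exact h
  obtain ⟨x, S, hx⟩ := H333.node_coord M hℓM h3 h2
  obtain ⟨X, hX⟩ := exists_isModelOf M ℓ x S hx
  -- the modular datum with coordinate `x` (as in `S37.Core.datumLeaf`)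
  have hcore := H98.coreData_residueField M ℓ hℓ hℓM A hA
  have hVG : Red.ModVG M A := H568.valueGroupHyp_modular hcore
  have hxm : coeffMap A.subtype (modelA A X) ∈ modularFunctionFieldBar M := by
    rw [coeffMap_subtype_modelA, ← hX.coe_eq]
    exact x.2
  have hxk : coeffMap (residue A) (modelA A X) ∈
      modularFunctionFieldFullC (ResidueField A) M :=
    H98.reduction_mem M ℓ hℓ hℓM A hA (modelA A X) hxm
  have htr : Transcendental (ResidueField A)
      (⟨coeffMap (residue A) (modelA A X), hxk⟩ :
        modularFunctionFieldFullC (ResidueField A) M) := by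
    refine transcendental_of_coeff_neg_one _ _ ?_
    show (coeffMap (residue A) (modelA A X)).coeff (-1) = 1
    rw [coeffMap_residue_modelA, redX, coeffMap_coeff, hX.coeff_neg_one, map_one]
  set G := Red.modG hVG (modelA A X) hxm hxk htr with hG
  have hGx : G.x = x := by
    apply Subtype.ext
    show coeffMap A.subtype (modelA A X) = _
    rw [coeffMap_subtype_modelA, hX.coe_eq]
  have hGxk : ((G.xk : modularFunctionFieldFullC (ResidueField A) M) :
      LaurentSeries (ResidueField A)) = redX A X := by
    have h := Red.modρ_ofSeries hVG (modelA A X) hxm hxk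
    have h' : G.xk = ⟨coeffMap (residue A) (modelA A X), hxk⟩ := h
    rw [h']
    exact coeffMap_residue_modelA A X
  have hlink : Red.H759.Link G := fun y hy hyk _ => Red.modG_link hVG y hy hyk
  obtain ⟨hf, hfk, hsep, hrk⟩ := hD4 M ℓ hℓ hℓM A hA x S hx X hX G hGx hGxk
  have hlev := fun E : Red.H759.NumberFieldIn =>
    hD3 M ℓ hℓ hℓM A hA x S hx X hX (hMod M ℓ hℓ hℓM A hA) hD2 E
  obtain ⟨E₀⟩ : Nonempty Red.H759.NumberFieldIn := inferInstance
  have hgood : G.Good := by
    refine Red.H217.good_of G hf hfk hsep hrk ?_ ?_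
    · refine Red.H759.lift_fin_of_levels G hlink E₀ (fun E _ => ?_)
      rw [hGx, hGxk]
      exact (hlev E).1
    · refine Red.H759.lift_inf_of_levels G hlink E₀ (fun E _ => ?_)
      rw [hGx, hGxk]
      exact (hlev E).2
  exact rim_of_good_h919 hVG X hxm hxk htr hgood

end Fermat.Agent.A3.GR.H919
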