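import Fermat.Agent.S37.H940.Chart
import Fermat.Agent.S37.H940.QSeries
import Fermat.Prelude.Def_AlgebraicCurve_BaseChangeGalois
import Fermat.Prelude.Def_ModularCurve_ArithmeticGalois
import Fermat.Prelude.Def_FLTPrelim_Ramification

/-!
# A3 / GOODRED-INST, leaf RIM (helper919): inertia invariance of the atlas reduction map

Abstract part (helper940's fibre-local core `S37/H940/{Core,Assembly,Chart}.lean` only).

A semilinear automorphism `g` of `F / K` is *inertial* for a reduction context `C` if it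
preserves `A` and `V` and acts trivially on the residue field and on reductions.

* `Atlas.red_smul_h919` : if `g` maps every tube of the atlas into itself and `g⁻¹` is inertial,
  then `𝔄.red (g • P) = 𝔄.red P` for every place `P`.
* `atlasOf_red_smul_h919` : the same for the atlas of a coordinate `x` fixed by `g`
  (`g` and `g⁻¹` inertial).

Concrete part: for `A ⊆ L` a valuation subring, `π : A → k`, and `σ ∈ Gal(L/ℚ)` preserving `A`
and acting trivially modulo `ker π`, the coefficientwise action `arithmeticGalois F₀ σ` on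
`F = L ⊗ F₀ ⊆ L((q))` is inertial for helper940's context of fractions of integral `q`-series:
`isInertial_qData_h919`; `inertia_mem_h919`, `inertia_res_h919` give the hypotheses for `σ` in
the inertia group of `A` (= leaf IBASE); `isFrac_smul_h919` is the content of leaf IRED.

Proof: let `s` be the separating function of the fibre of `P`; `g⁻¹ s` is regular on the tube,
has the same reduction as `s`, and its value at `P` is `g⁻¹ (s (g P)) ≡ s (g P)`; by value
compatibility `ρ s` takes the same value at `red P` and at `red (g P)`.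
-/

set_option autoImplicit false
set_option linter.style.haveILetI false

noncomputable section

namespace Fermat.Agent.A3.GR.H919

open AlgebraicCurve IntermediateField
open Fermat.Agent.S37.H940

variable {K F k Fk : Type*} [Field K] [Field F] [Algebra K F] [Field k] [Field Fk]
  [Algebra k Fk]

/-- `g` preserves `A` and `V` and acts trivially on the residue field and on reductions. -/
structure IsInertial (C : Ctx K F k Fk) (g : SemilinearAut K F) : Prop where
  base_mem : ∀ a : C.A, SemilinearAut.baseAut g (a : K) ∈ C.A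
  base_res : ∀ a : C.A, C.π ⟨SemilinearAut.baseAut g (a : K), base_mem a⟩ = C.π a
  mem : ∀ u : C.V, g • (u : F) ∈ C.V
  red : ∀ u : C.V, C.ρ ⟨g • (u : F), mem u⟩ = C.ρ u

theorem inMax_smul_h919 (g : SemilinearAut K F) {P : Place K F} {f : F} (h : InMax P f) :
    InMax (g • P) (g • f) := by
  rcases h with rfl | h
  · rw [smul_zero]
    exact inMax_zero _
  · exact inMax_of_ord_pos (by rw [SemilinearAut.ord_smul]; exact h)

theorem inMax_inv_smul_h919 (g : SemilinearAut K F) {P : Place K F} {f : F}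
    (h : InMax (g • P) f) : InMax P (g⁻¹ • f) := by
  have := inMax_smul_h919 g⁻¹ h
  rwa [inv_smul_smul] at this

theorem ord_inv_smul_h919 (g : SemilinearAut K F) (P : Place K F) (f : F) :
    P.ord (g⁻¹ • f) = (g • P).ord f := by
  have := SemilinearAut.ord_smul g P (g⁻¹ • f)
  rw [smul_inv_smul] at this
  exact this.symm

/-- a tube of a coordinate fixed by an inertial automorphism is stable -/
theorem smul_mem_tube_h919 (C : Ctx K F k Fk) {g : SemilinearAut K F} (hg : IsInertial C g)
    {t : F} (ht : g • t = t) {c : k} {P : Place K F} (hP : P ∈ C.tube t c) :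
    g • P ∈ C.tube t c := by
  obtain ⟨a, ha, hval⟩ := hP
  refine ⟨⟨SemilinearAut.baseAut g (a : K), hg.base_mem a⟩, (hg.base_res a).trans ha, ?_⟩
  have := inMax_smul_h919 g hval
  rwa [smul_sub, ht, SemilinearAut.smul_algebraMap] at this

/-- **Inertia invariance of the reduction map of an atlas.** -/
theorem Atlas.red_smul_h919 [Infinite k] {C : Ctx K F k Fk} {ι : Type*} (𝔄 : Atlas C ι)
    (g : SemilinearAut K F) (hg : IsInertial C g⁻¹)
    (htube : ∀ (i : ι) (P : Place K F), P ∈ (𝔄.Φ i).𝔉 → g • P ∈ (𝔄.Φ i).𝔉)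
    (P : Place K F) : 𝔄.red (g • P) = 𝔄.red P := by
  obtain ⟨i, hP⟩ := 𝔄.cover P
  have hgP : g • P ∈ (𝔄.Φ i).𝔉 := htube i P hP
  rw [𝔄.red_eq hgP, 𝔄.red_eq hP]
  set Φ := 𝔄.Φ i with hΦ
  -- the value of the separating function at `g • P`
  have h1 := Φ.red_sepFun hgP
  -- the conjugate function
  set b : C.V := ⟨g⁻¹ • (Φ.sepFun : F), hg.mem Φ.sepFun⟩ with hb
  have hρb : C.ρ b = C.ρ Φ.sepFun := hg.red Φ.sepFun
  have hreg : ∀ P' ∈ Φ.𝔉, 0 ≤ P'.ord (b : F) := by
    intro P' hP'
    show 0 ≤ P'.ord (g⁻¹ • (Φ.sepFun : F))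
    rw [ord_inv_smul_h919]
    exact Φ.sepFun_reg _ (htube i P' hP')
  set a : C.A := ⟨SemilinearAut.baseAut g⁻¹ ((Φ.sepValue hgP : C.A) : K),
    hg.base_mem (Φ.sepValue hgP)⟩ with ha
  have hπa : C.π a = C.π (Φ.sepValue hgP) := hg.base_res (Φ.sepValue hgP)
  have hval : InMax P ((b : F) - algebraMap K F (a : K)) := by
    have := inMax_inv_smul_h919 g (Φ.sepValue_spec hgP)
    rwa [smul_sub, SemilinearAut.smul_algebraMap] at this
  have h2 := Φ.red_value b hreg hP hval
  rw [hρb, hπa] at h2
  exact Φ.sepFun_sep _ (Φ.red_mem _) _ (Φ.red_mem _) _ h1 h2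

section Coord

variable [IsAlgClosed K] [IsAlgClosed k] (C : Ctx K F k Fk) (x : C.V)
  (hx : Transcendental k (C.ρ x))
  [FiniteDimensional K⟮(x : F)⟯ F] [FiniteDimensional k⟮C.ρ x⟯ Fk]
  (hfin : ∀ c : k, LocalCoord C x c) (hinf : LocalCoord C (xinv C x hx) 0)

/-- **Inertia invariance of the reduction map of the atlas of a coordinate** fixed by `g`. -/
theorem atlasOf_red_smul_h919 (g : SemilinearAut K F) (hg : IsInertial C g)
    (hg' : IsInertial C g⁻¹) (hgx : g • (x : F) = (x : F)) (P : Place K F) :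
    (atlasOf C x hx hfin hinf).red (g • P) = (atlasOf C x hx hfin hinf).red P := by
  haveI : Infinite k := IsAlgClosed.instInfinite
  refine Atlas.red_smul_h919 _ g hg' ?_ P
  intro i P' hP'
  match i, hP' with
  | some c, hP' => exact smul_mem_tube_h919 C hg hgx hP'
  | none, hP' =>
    have hgx' : g • ((x : F))⁻¹ = ((x : F))⁻¹ := by rw [smul_inv'', hgx]
    exact smul_mem_tube_h919 C hg hgx' hP'

/-- the reduction map of the atlas of a coordinate preserves degrees -/
theorem atlasOf_red_deg_h919 (P : Place K F) :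
    ((atlasOf C x hx hfin hinf).red P).deg = P.deg := by
  rw [deg_eq_one_of_res P (fun f hf => Line.exists_value (C.transcendental_of_ρ hx) P hf),
    deg_eq_one_of_res _ (fun g hg => Line.exists_value hx _ hg)]

/-- the reduction map of the atlas of a coordinate specialises principal divisors -/
theorem atlasOf_mapDomain_red_h919 (u : C.V) (hu : C.ρ u ≠ 0) (D : Divisor K F)
    (hD : ∀ P, D P = P.ord (u : F)) (Q : Place k Fk) :
    Finsupp.mapDomain (atlasOf C x hx hfin hinf).red D Q = Q.ord (C.ρ u) := by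
  haveI : Infinite k := IsAlgClosed.instInfinite
  exact (atlasOf C x hx hfin hinf).mapDomain_red u hu D hD Q

end Coord

/-! ## The coefficientwise Galois action is inertial -/

open AlgebraicCurve ModularCurve HahnSeries
open Fermat.Agent.S37.H940

section Frac

variable {K F k Fk : Type*} [Field K] [Field F] [Algebra K F] [Field k] [Field Fk]
  [Algebra k Fk] (𝔇 : FracData K F k Fk) (g : SemilinearAut K F)
  (hO : ∀ a : 𝔇.O, ∃ h : g • (a : F) ∈ 𝔇.O, 𝔇.ρ₀ ⟨g • (a : F), h⟩ = 𝔇.ρ₀ a)

include hO in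
/-- if `g` preserves the integral functions and their reductions, it preserves the fractions
and their reductions -/
theorem isFrac_smul_h919 (u : 𝔇.V) :
    ∃ h : g • (u : F) ∈ 𝔇.V, 𝔇.ρ ⟨g • (u : F), h⟩ = 𝔇.ρ u := by
  obtain ⟨a, b, hb, hab⟩ := (u.2 : 𝔇.IsFrac u)
  obtain ⟨ha', hρa⟩ := hO a
  obtain ⟨hb', hρb⟩ := hO b
  have hb0 : 𝔇.ρ₀ ⟨g • (b : F), hb'⟩ ≠ 0 := by rw [hρb]; exact hb
  have hab' : g • (u : F) * g • (b : F) = g • (a : F) := by rw [← smul_mul', hab]
  have hmem : g • (u : F) ∈ 𝔇.V := ⟨⟨g • (a : F), ha'⟩, ⟨g • (b : F), hb'⟩, hb0, hab'⟩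
  refine ⟨hmem, ?_⟩
  rw [𝔇.ρ_apply ⟨_, hmem⟩ (a := ⟨g • (a : F), ha'⟩) (b := ⟨g • (b : F), hb'⟩) hb0 hab',
    𝔇.ρ_apply u hb hab, hρa, hρb]

include hO in
/-- inertial automorphisms from their action on the integral functions -/
theorem isInertial_frac_h919 (hA : ∀ a : 𝔇.A, SemilinearAut.baseAut g (a : K) ∈ 𝔇.A)
    (hπ : ∀ a : 𝔇.A, 𝔇.π ⟨SemilinearAut.baseAut g (a : K), hA a⟩ = 𝔇.π a) :
    IsInertial 𝔇.ctx g where
  base_mem := hA
  base_res := hπ
  mem u := (isFrac_smul_h919 𝔇 g hO u).1
  red u := (isFrac_smul_h919 𝔇 g hO u).2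

end Frac

section Inertia

variable {L : Type*} [Field L] (K : Type*) [Field K] [Algebra K L] {A : ValuationSubring L}

/-- elements of the inertia group preserve `A` -/
theorem inertia_mem_h919 {τ : L ≃ₐ[K] L} (hτ : τ ∈ A.inertiaSubgroupIn K) (x : A) :
    τ (x : L) ∈ A := by
  obtain ⟨t, -, rfl⟩ := hτ
  exact (t • x : A).2

/-- elements of the inertia group act trivially on the residue field -/
theorem inertia_res_h919 {τ : L ≃ₐ[K] L} (hτ : τ ∈ A.inertiaSubgroupIn K) (x : A) :
    IsLocalRing.residue A ⟨τ (x : L), inertia_mem_h919 K hτ x⟩ = IsLocalRing.residue A x := by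
  obtain ⟨t, ht, rfl⟩ := hτ
  have h1 : MulSemiringAction.toRingAut (A.decompositionSubgroup K)
      (IsLocalRing.ResidueField A) t = 1 := MonoidHom.mem_ker.mp ht
  have h2 : t • (IsLocalRing.residue A x) = IsLocalRing.residue A x :=
    congrArg (fun e : RingAut (IsLocalRing.ResidueField A) => e (IsLocalRing.residue A x)) h1
  exact h2

end Inertia

section Coeff

variable {L : Type*} [Field L] [Algebra ℚ L] (A : ValuationSubring L) {k : Type*} [Field k]
  (π : A →+* k) (F₀ : IntermediateField ℚ (LaurentSeries ℚ))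
  (Fk : IntermediateField k (LaurentSeries k))
  (σ : L ≃ₐ[ℚ] L) (hσA : ∀ a : A, σ (a : L) ∈ A) (hσπ : ∀ a : A, π ⟨σ (a : L), hσA a⟩ = π a)

/-- the restriction of `σ` to `A` -/
def resA_h919 : A →+* A where
  toFun a := ⟨σ (a : L), hσA a⟩
  map_one' := Subtype.ext (map_one σ)
  map_mul' a b := Subtype.ext (map_mul σ (a : L) (b : L))
  map_zero' := Subtype.ext (map_zero σ)
  map_add' a b := Subtype.ext (map_add σ (a : L) (b : L))

theorem subtype_comp_resA_h919 :
    A.subtype.comp (resA_h919 A σ hσA) = (σ : L →+* L).comp A.subtype :=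
  RingHom.ext fun _ => rfl

include hσπ in
theorem pi_comp_resA_h919 : π.comp (resA_h919 A σ hσA) = π :=
  RingHom.ext fun a => hσπ a

include hσπ in
/-- the conjugate of an integral `q`-series is integral, with the same reduction -/
theorem isIntQ_smul_h919 (f : laurentBaseChange L F₀)
    (hf : IsIntQ A π (laurentBaseChange L F₀) Fk f) :
    ∃ h : IsIntQ A π (laurentBaseChange L F₀) Fk (arithmeticGalois F₀ σ • f),
      redQ A π (laurentBaseChange L F₀) Fk ⟨arithmeticGalois F₀ σ • f, h⟩ =
        redQ A π (laurentBaseChange L F₀) Fk ⟨f, hf⟩ := by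
  obtain ⟨y, hy, hyk⟩ := hf
  have h1 : coeffMap A.subtype (coeffMap (resA_h919 A σ hσA) y) =
      ((arithmeticGalois F₀ σ • f : laurentBaseChange L F₀) : LaurentSeries L) := by
    rw [coe_arithmeticGalois_smul, ← hy, coeffMap_coeffMap, coeffMap_coeffMap]
    exact coeffMap_congr (subtype_comp_resA_h919 A σ hσA) y
  have h2 : coeffMap π (coeffMap (resA_h919 A σ hσA) y) = coeffMap π y := by
    rw [coeffMap_coeffMap]
    exact coeffMap_congr (pi_comp_resA_h919 A π σ hσA hσπ) y
  have h : IsIntQ A π (laurentBaseChange L F₀) Fk (arithmeticGalois F₀ σ • f) :=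
    ⟨coeffMap (resA_h919 A σ hσA) y, h1, by rw [h2]; exact hyk⟩
  refine ⟨h, Subtype.ext ?_⟩
  rw [coe_redQ A π _ Fk ⟨arithmeticGalois F₀ σ • f, h⟩ h1,
    coe_redQ A π _ Fk ⟨f, ⟨y, hy, hyk⟩⟩ hy, h2]

variable (hsurj : Function.Surjective π) (hker : ∀ a : A, π a = 0 ↔ ¬ IsUnit a)

include hσπ in
/-- **The coefficientwise action of `σ` is inertial** for the context of fractions of integral
`q`-series. -/
theorem isInertial_qData_h919 :
    IsInertial (qData A π (laurentBaseChange L F₀) Fk hsurj hker).ctx (arithmeticGalois F₀ σ) :=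
  isInertial_frac_h919 (qData A π (laurentBaseChange L F₀) Fk hsurj hker) (arithmeticGalois F₀ σ)
    (fun a => isIntQ_smul_h919 A π F₀ Fk σ hσA hσπ (a : laurentBaseChange L F₀) a.2) hσA hσπ

/-- a series with integer coefficients is fixed by the coefficientwise action -/
theorem smul_eq_of_int_h919 (X : LaurentSeries ℤ) (f : laurentBaseChange L F₀)
    (hf : (f : LaurentSeries L) = coeffMap (Int.castRingHom L) X) :
    arithmeticGalois F₀ σ • f = f := by
  apply Subtype.ext
  rw [coe_arithmeticGalois_smul, hf, coeffMap_coeffMap]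
  exact coeffMap_congr (RingHom.ext_int _ _) X

end Coeff

end Fermat.Agent.A3.GR.H919
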